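import Fermat.Agent.S37.H508.RimCharts
import Fermat.Agent.S37.H98.Gen

/-!
# S37 / node_rim (helper98): the field `frac` of helper508's `RimSkel`

`frac N hℓ hℓN A hA f hf` : every nonzero `f ∈ ℚ̄(X₀(N))` is a constant times a quotient of two
functions of the finite chart `finChart A N` (Gauss-integral modular functions, integral over
`A[j]`) with nonzero reductions:  `f * ι b = μ * ι a`.

Proof: the normal form of helper700 (`H700.exists_denominator` + `H700.normalize_family`) gives
`a = ∑ Pᵢ(j) yᵢ`, `b = Q(j)` with `yᵢ ∈ ℤ[j(q^d) : d ∣ N]`; these are integral over `A[j]` because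
each `j(q^d)` is integral over `ℤ[j]` (`S28.CoreData.integral`).

Also exported: `intOverS_evalJ`, `intOverS_coeffMap_of_mem_closure` (integrality over `R[j]` of
the image of `ℤ[j(q^d) : d ∣ N]`, any commutative ring `R`), `exists_frac_series` (the normal
form at the level of `A((q))`).
-/

set_option autoImplicit false
set_option synthInstance.maxHeartbeats 400000

noncomputable section

namespace Fermat.Agent.S37.H98

open ModularCurve HahnSeries AlgebraicCurve Polynomial
open Fermat.Agent.S37.H518 Fermat.Agent.S37.H508 Fermat.Agent.S37.H700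
open Fermat.Agent.S28 (jField intDivisorExpansions CoreData evalAt)

section Integrality

variable (R : Type*) [CommRing R]

/-- polynomials in `j` are integral over `R[j]` -/
theorem intOverS_evalJ (P : R[X]) : IntOverS (jqModC R) (evalJ R P) :=
  intOverS_map (jqModC R) P

variable {R}

/-- the two evaluation maps `ℤ[Y] → R((q))` agree -/
theorem evalS_comp_mapRingHom :
    (evalS (jqModC R)).comp (Polynomial.mapRingHom (Int.castRingHom R)) =
      (coeffMap (Int.castRingHom R)).comp (evalAt (jqModC ℤ)) := by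
  refine Polynomial.ringHom_ext (fun a => ?_) ?_
  · simp only [RingHom.comp_apply, Polynomial.coe_mapRingHom, Polynomial.map_C, evalS_C]
    have h1 : evalAt (jqModC ℤ) (Polynomial.C a) = algebraMap ℤ (LaurentSeries ℤ) a := by
      show Polynomial.aeval (jqModC ℤ) (Polynomial.C a) = _
      rw [Polynomial.aeval_C]
    rw [h1]
    simp
  · simp only [RingHom.comp_apply, Polynomial.coe_mapRingHom, Polynomial.map_X, evalS_X]
    have h1 : evalAt (jqModC ℤ) Polynomial.X = jqModC ℤ := by
      show Polynomial.aeval (jqModC ℤ) Polynomial.X = _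
      rw [Polynomial.aeval_X]
    rw [h1, coeffMap_jqModC]

/-- an element of `ℤ((q))` integral over `ℤ[j]` stays integral over `R[j]` -/
theorem intOverS_coeffMap_of_monic {y : LaurentSeries ℤ} (P : Polynomial (Polynomial ℤ))
    (hP : P.Monic) (h0 : P.eval₂ (evalAt (jqModC ℤ)) y = 0) :
    IntOverS (jqModC R) (coeffMap (Int.castRingHom R) y) := by
  refine ⟨P.map (Polynomial.mapRingHom (Int.castRingHom R)), hP.map _, ?_⟩
  rw [Polynomial.eval₂_map, evalS_comp_mapRingHom, ← Polynomial.hom_eval₂, h0, map_zero]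

/-- the image of `ℤ[j(q^d) : d ∣ N]` in `R((q))` is integral over `R[j]` -/
theorem intOverS_coeffMap_of_mem_closure (N : ℕ)
    (hint : ∀ (d : ℕ) [NeZero d], d ∣ N →
      ∃ P : Polynomial (Polynomial ℤ), P.Monic ∧
        P.eval₂ (evalAt (jqModC ℤ)) (qExpand ℤ d (jqModC ℤ)) = 0)
    {y : LaurentSeries ℤ} (hy : y ∈ Subring.closure (intDivisorExpansions N)) :
    IntOverS (jqModC R) (coeffMap (Int.castRingHom R) y) := by
  induction hy using Subring.closure_induction with
  | mem x hx =>
    obtain ⟨d, hd, hdN, rfl⟩ := hx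
    obtain ⟨P, hP, h0⟩ := hint d hdN
    exact intOverS_coeffMap_of_monic P hP h0
  | zero => rw [map_zero]; exact intOverS_zero _
  | one => rw [map_one]; exact intOverS_one _
  | add x z _ _ hx hz => rw [map_add]; exact hx.add hz
  | neg x _ hx => rw [map_neg]; exact hx.neg
  | mul x z _ _ hx hz => rw [map_mul]; exact hx.mul hz

end Integrality

section Frac

variable (N : ℕ) [NeZero N] (A : ValuationSubring (AlgebraicClosure ℚ))

/-- **Normal form** in `A((q))`: every nonzero `f ∈ ℚ̄(X₀(N))` is `μ · a / b` with `a, b ∈ A((q))`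
Gauss-integral modular functions, integral over `A[j]`, with nonzero reductions. -/
theorem exists_frac_series (hcore : CoreData N (IsLocalRing.ResidueField A))
    (f : modularFunctionFieldBar N) (hf : f ≠ 0) :
    ∃ a b : LaurentSeries A,
      coeffMap A.subtype a ∈ modularFunctionFieldBar N ∧
      coeffMap A.subtype b ∈ modularFunctionFieldBar N ∧
      IntOverS (jqModC A) a ∧ IntOverS (jqModC A) b ∧
      coeffMap (IsLocalRing.residue A) a ≠ 0 ∧ coeffMap (IsLocalRing.residue A) b ≠ 0 ∧
      ∃ μ : AlgebraicClosure ℚ, μ ≠ 0 ∧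
        (f : LaurentSeries (AlgebraicClosure ℚ)) * coeffMap A.subtype b =
          HahnSeries.C μ * coeffMap A.subtype a := by
  classical
  obtain ⟨n, y, hy_mem, hy_span, hy_ind⟩ := hcore.exists_basis
  have hfU : (f : LaurentSeries Qb) ≠ 0 := fun h => hf (Subtype.ext h)
  obtain ⟨Q₀, P₀, hQ₀, h₀⟩ := exists_denominator Qb y
    (mem_spanL_of_mem_baseChange Qb y N hy_mem hy_span f.2)
  have hQ₀e : evalJ Qb Q₀ ≠ 0 := fun h => hQ₀ ((evalJ_eq_zero_iff Qb).mp h)
  have hP₀ : ∃ i, P₀ i ≠ 0 := by
    by_contra hcon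
    push Not at hcon
    have : evalJ Qb Q₀ * (f : LaurentSeries Qb) = 0 := by
      rw [h₀]
      exact Finset.sum_eq_zero fun i _ => by rw [hcon i, evalJ_zero, zero_mul]
    exact (mul_ne_zero hQ₀e hfU) this
  obtain ⟨cQ, hcQ, Q', hQ', u₀, hQ'red⟩ := normalize_family A (fun _ : Unit => Q₀) ⟨(), hQ₀⟩
  obtain ⟨cP, hcP, P', hP', i₀, hi₀⟩ := normalize_family A P₀ hP₀
  set b : LaurentSeries A := evalJ A (Q' ()) with hb
  set a : LaurentSeries A := ∑ i, evalJ A (P' i) * coeffMap (Int.castRingHom A) (y i) with ha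
  have hbL : coeffMap A.subtype b = HahnSeries.C cQ * evalJ Qb Q₀ := by
    rw [hb, coeffMap_evalJ, hQ' (), evalJ_mul, H700.evalJ_C]
  have haL : coeffMap A.subtype a = HahnSeries.C cP * (evalJ Qb Q₀ * (f : LaurentSeries Qb)) := by
    rw [ha, map_sum, h₀, Finset.mul_sum]
    refine Finset.sum_congr rfl fun i _ => ?_
    rw [map_mul, coeffMap_evalJ, hP' i, evalJ_mul, H700.evalJ_C, coeffMap_coeffMap, mul_assoc]
    congr 2
  have hQmem : evalJ Qb Q₀ ∈ modularFunctionFieldBar N := jField_le_bar (evalJ_mem_jField Qb Q₀)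
  have hbmem : coeffMap A.subtype b ∈ modularFunctionFieldBar N := by
    rw [hbL]; exact mul_mem (C_mem_bar cQ) hQmem
  have hamem : coeffMap A.subtype a ∈ modularFunctionFieldBar N := by
    rw [haL]; exact mul_mem (C_mem_bar cP) (mul_mem hQmem f.2)
  have hbred : coeffMap (IsLocalRing.residue A) b ≠ 0 := by
    rw [hb, coeffMap_evalJ]
    exact fun h => hQ'red ((evalJ_eq_zero_iff _).mp h)
  have hared : coeffMap (IsLocalRing.residue A) a ≠ 0 := by
    intro h
    rw [ha, map_sum] at h
    have h' : ∑ i, evalJ (IsLocalRing.ResidueField A) ((P' i).map (IsLocalRing.residue A)) *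
        coeffMap (Int.castRingHom (IsLocalRing.ResidueField A)) (y i) = 0 := by
      rw [← h]
      refine Finset.sum_congr rfl fun i _ => ?_
      rw [map_mul, coeffMap_evalJ, coeffMap_coeffMap]
      congr 1
    exact hi₀ (eq_zero_of_sum_evalJ_eq_zero _ hy_ind _ h' i₀)
  have hbint : IntOverS (jqModC A) b := intOverS_evalJ A _
  have haint : IntOverS (jqModC A) a := by
    rw [ha]
    refine Finset.sum_induction _ (IntOverS (jqModC A)) (fun _ _ hx hz => hx.add hz)
      (intOverS_zero _) fun i _ => ?_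
    exact (intOverS_evalJ A _).mul (intOverS_coeffMap_of_mem_closure N hcore.integral (hy_mem i))
  refine ⟨a, b, hamem, hbmem, haint, hbint, hared, hbred, cQ * cP⁻¹, mul_ne_zero hcQ
    (inv_ne_zero hcP), ?_⟩
  rw [hbL, haL, map_mul]
  have hcc : (HahnSeries.C cP⁻¹ : LaurentSeries Qb) * HahnSeries.C cP = 1 := by
    rw [← map_mul, inv_mul_cancel₀ hcP, map_one]
  calc (f : LaurentSeries Qb) * (HahnSeries.C cQ * evalJ Qb Q₀)
      = HahnSeries.C cQ * 1 * (evalJ Qb Q₀ * (f : LaurentSeries Qb)) := by ring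
    _ = HahnSeries.C cQ * HahnSeries.C cP⁻¹ *
          (HahnSeries.C cP * (evalJ Qb Q₀ * (f : LaurentSeries Qb))) := by
        rw [← hcc]; ring

end Frac

section Field

/-- **Field `frac` of `H508.Skel` (node_rim)**: every nonzero function is a constant times a
quotient of functions of the finite chart with nonzero reductions. -/
theorem frac (N : ℕ) [NeZero N] {ℓ : ℕ} (hℓ : ℓ.Prime) (hℓN : ¬ ℓ ∣ N)
    (A : ValuationSubring (AlgebraicClosure ℚ)) (hA : A.LiesOverPrime ℓ)
    (f : modularFunctionFieldBar N) (hf : f ≠ 0) :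
    ∃ a ∈ finChart A N, ∃ b ∈ finChart A N,
      rhoF A (IsLocalRing.residue A) N a ≠ 0 ∧ rhoF A (IsLocalRing.residue A) N b ≠ 0 ∧
      ∃ μ : AlgebraicClosure ℚ, μ ≠ 0 ∧
        f * iotaF A (IsLocalRing.residue A) N b =
          algebraMap (AlgebraicClosure ℚ) (modularFunctionFieldBar N) μ *
            iotaF A (IsLocalRing.residue A) N a := by
  have hcore := coreData_residueField N ℓ hℓ hℓN A hA
  obtain ⟨a, b, hamem, hbmem, haint, hbint, hared, hbred, μ, hμ, hfab⟩ :=
    exists_frac_series N A hcore f hf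
  refine ⟨⟨a, hamem, H700.reduction_mem hcore a hamem⟩, haint,
    ⟨b, hbmem, H700.reduction_mem hcore b hbmem⟩, hbint, ?_, ?_, μ, hμ, ?_⟩
  · exact fun h => hared (congrArg Subtype.val h)
  · exact fun h => hbred (congrArg Subtype.val h)
  · apply Subtype.ext
    show (f : LaurentSeries (AlgebraicClosure ℚ)) * coeffMap A.subtype b =
      algebraMap (AlgebraicClosure ℚ) (LaurentSeries (AlgebraicClosure ℚ)) μ *
        coeffMap A.subtype a
    rw [hfab, algebraMap_laurentSeries_eq_single]
    rfl

end Field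

end Fermat.Agent.S37.H98
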